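import Fermat.Agent.S33.Ser.Cong

/-!
# S33/SER, part 2 : congruences `u ≡ 1 (c)` at `v_∞` on `FN N`; the norm formula (N) + (U')      (helper19)

For `u : FN N` the predicate "`u ≡ 1 (c)` at `v_∞`" is `CongS A c (u : LaurentSeries Kb)`.

* `mem_Vinf_iff`, `dvdS_iff`, `congS_iff` : translation to `S34.Mod.Vinf`.
* `mem_VS_of_qExpand`, `dvdS_of_qExpand`, `congS_of_qExpand` : descent along `q ↦ q ^ ℓ`.
* `cong_iff_congS` : `ES.Alg.Cong A N f ↔ ∃ c ∈ 𝔪, CongS A c f`.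
* `ZetaData A p` : a primitive `p`-th root of unity `ζ`, `ϖ = ζ - 1 ∈ 𝔪`; `ZetaData.dvd_p : ϖ ∣ p`.
* `congS_normAlpha` : `W_p u ≡ 1 (c)` ⟹ `α (N_α u) / u ≡ 1 (ϖ c, c ^ p)`.
* `congS_alpha`, `congS_beta`, `congS_gal`.
-/

set_option autoImplicit false
set_option synthInstance.maxHeartbeats 400000

open HahnSeries ModularCurve AlgebraicCurve Fermat.Agent.S24 Fermat.Agent.S29 Fermat.Agent.S18
  Fermat.Agent.ES.Alg Fermat.Agent.S34.Mod Fermat.Agent.S35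

noncomputable section

namespace Fermat.Agent.S33

variable {A : ValuationSubring Kb} {N : ℕ} [NeZero N]

theorem mem_Vinf_iff {x : FN N} : x ∈ Vinf A N ↔ (x : LaurentSeries Kb) ∈ VS A := by
  rw [mem_Vinf]
  constructor
  · rintro ⟨y1, y2, h, h2⟩
    exact ⟨red A y1 / red A y2, y1, y2, h2, h, div_mul_cancel₀ _ h2⟩
  · rintro ⟨r, y1, y2, h2, h, -⟩
    exact ⟨y1, y2, h, h2⟩

theorem dvdS_iff {c : A} {x : FN N} : DvdS A c (x : LaurentSeries Kb) ↔
    ∃ w ∈ Vinf A N, x = algebraMap Kb (FN N) (c : Kb) * w := by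
  constructor
  · rintro ⟨w, hw, e⟩
    by_cases hc : (c : Kb) = 0
    · refine ⟨0, zero_mem _, Subtype.ext ?_⟩
      rw [e, hc, mul_zero]
      show algebraMap Kb (LaurentSeries Kb) 0 * w = 0
      rw [map_zero, zero_mul]
    · have e1 : w = ((algebraMap Kb (FN N) (c : Kb)⁻¹ * x : FN N) : LaurentSeries Kb) := by
        show w = cK (c : Kb)⁻¹ * (x : LaurentSeries Kb)
        rw [e, ← mul_assoc, ← cK_mul, inv_mul_cancel₀ hc, cK_one, one_mul]
      refine ⟨algebraMap Kb (FN N) (c : Kb)⁻¹ * x, mem_Vinf_iff.mpr (e1 ▸ hw), ?_⟩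
      rw [← mul_assoc, ← map_mul, mul_inv_cancel₀ hc, map_one, one_mul]
  · rintro ⟨w, hw, rfl⟩
    exact ⟨w, mem_Vinf_iff.mp hw, rfl⟩

theorem congS_iff {c : A} {u : FN N} : CongS A c (u : LaurentSeries Kb) ↔
    ∃ w ∈ Vinf A N, u = 1 + algebraMap Kb (FN N) (c : Kb) * w := by
  have : CongS A c (u : LaurentSeries Kb) ↔ DvdS A c ((u - 1 : FN N) : LaurentSeries Kb) := Iff.rfl
  rw [this, dvdS_iff]
  constructor
  · rintro ⟨w, hw, e⟩
    exact ⟨w, hw, by rw [← e]; ring⟩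
  · rintro ⟨w, hw, e⟩
    exact ⟨w, hw, by rw [e]; ring⟩

theorem mem_VS_of_qExpand (ℓ : ℕ) [NeZero ℓ] (x : FN N)
    (h : qExpand Kb ℓ (x : LaurentSeries Kb) ∈ VS A) : (x : LaurentSeries Kb) ∈ VS A := by
  rw [← mem_Vinf_iff]
  by_cases hx : x = 0
  · rw [hx]; exact zero_mem _
  rcases mem_or_inv_mem (A := A) x with h1 | h1
  · exact h1
  by_cases h0 : resInf A N ⟨x⁻¹, h1⟩ = 0
  · exfalso
    obtain ⟨a, ha, y, hy, e⟩ := exists_smul_of_resInf_eq_zero h0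
    obtain ⟨r, hr⟩ := mem_Vinf_iff.mp hy
    obtain ⟨r', hr'⟩ := h
    have hx' : (x : LaurentSeries Kb) ≠ 0 := fun h0 => hx (Subtype.ext h0)
    have e1 : (x : LaurentSeries Kb)⁻¹ = cK (a : Kb) * (y : LaurentSeries Kb) :=
      congrArg Subtype.val e
    have h2 : Rd A (x : LaurentSeries Kb)⁻¹ 0 := by
      have := (Rd.const a).mul hr
      rwa [(IsLocalRing.residue_eq_zero_iff a).mpr ha, ck_zero, zero_mul, ← e1] at this
    have h3 := hr'.mul (h2.qExpand ℓ)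
    rw [← map_mul, mul_inv_cancel₀ hx', map_one, map_zero, mul_zero] at h3
    exact one_ne_zero (Rd.one.unique h3)
  · have := inv_mem_Vinf h0
    rwa [inv_inv] at this

theorem dvdS_of_qExpand (ℓ : ℕ) [NeZero ℓ] {c : A} (x : FN N)
    (h : DvdS A c (qExpand Kb ℓ (x : LaurentSeries Kb))) : DvdS A c (x : LaurentSeries Kb) := by
  obtain ⟨w, hw, e⟩ := h
  by_cases hc : (c : Kb) = 0
  · have e0 : cK (0 : Kb) = 0 := map_zero _
    rw [hc, e0, zero_mul] at e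
    have : (x : LaurentSeries Kb) = 0 := qExpand_injective (R := Kb) ℓ (by rw [e, map_zero])
    rw [this]; exact DvdS.zero
  · have e1 : qExpand Kb ℓ ((algebraMap Kb (FN N) (c : Kb)⁻¹ * x : FN N) : LaurentSeries Kb) = w := by
      show qExpand Kb ℓ (cK (c : Kb)⁻¹ * (x : LaurentSeries Kb)) = w
      rw [map_mul, qExpand_cK, e, ← mul_assoc, ← cK_mul, inv_mul_cancel₀ hc, cK_one, one_mul]
    have h2 := mem_VS_of_qExpand (A := A) ℓ (algebraMap Kb (FN N) (c : Kb)⁻¹ * x) (e1 ▸ hw)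
    refine ⟨_, h2, ?_⟩
    show (x : LaurentSeries Kb) = cK (c : Kb) * (cK (c : Kb)⁻¹ * (x : LaurentSeries Kb))
    rw [← mul_assoc, ← cK_mul, mul_inv_cancel₀ hc, cK_one, one_mul]

theorem congS_of_qExpand (ℓ : ℕ) [NeZero ℓ] {c : A} (x : FN N)
    (h : CongS A c (qExpand Kb ℓ (x : LaurentSeries Kb))) : CongS A c (x : LaurentSeries Kb) := by
  refine dvdS_of_qExpand ℓ (x - 1) ?_
  show DvdS A c (qExpand Kb ℓ ((x : LaurentSeries Kb) - 1))
  rw [map_sub, map_one]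
  exact h

theorem cong_iff_congS {f : FN N} : Cong A N f ↔
    ∃ c ∈ IsLocalRing.maximalIdeal A, CongS A c (f : LaurentSeries Kb) := by
  rw [cong_iff]
  constructor
  · rintro ⟨h, h1⟩
    have h2 : resInf A N (⟨f, h⟩ - 1) = 0 := by rw [map_sub, h1, map_one, sub_self]
    obtain ⟨a, ha, y, hy, e⟩ := exists_smul_of_resInf_eq_zero h2
    exact ⟨a, ha, dvdS_iff.mpr ⟨y, hy, e⟩⟩
  · rintro ⟨c, hc, h⟩
    obtain ⟨y1, y2, h2, hs, hr⟩ := h.rd hc
    have hq : IsQuo A N f y1 y2 := ⟨hs, h2⟩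
    refine ⟨(mem_Vinf A N).mpr ⟨y1, y2, hq⟩, ?_⟩
    rw [resInf_eq (x := ⟨f, (mem_Vinf A N).mpr ⟨y1, y2, hq⟩⟩) hq, ← hr, one_mul, div_self h2]

/-! ### the root of unity -/

/-- a primitive `p`-th root of unity `ζ` with `ϖ = ζ - 1 ∈ 𝔪_A` -/
structure ZetaData (A : ValuationSubring Kb) (p : ℕ) where
  /-- the root of unity -/
  ζ : Kb
  prim : IsPrimitiveRoot ζ p
  /-- the uniformiser of `ℚ_p(ζ_p)` -/
  ϖ : A
  coe_ϖ : (ϖ : Kb) = ζ - 1
  mem : ϖ ∈ IsLocalRing.maximalIdeal A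

namespace ZetaData

variable {p : ℕ} (Z : ZetaData A p)

theorem isUnit : IsUnit (1 + Z.ϖ) := by
  rw [← IsLocalRing.notMem_maximalIdeal]
  intro h
  have := (IsLocalRing.maximalIdeal A).sub_mem h Z.mem
  rw [add_sub_cancel_right] at this
  exact (Ideal.ne_top_iff_one _).mp (IsLocalRing.maximalIdeal.isMaximal A).ne_top this

/-- `ζ` as a unit of `A` -/
def u : Aˣ := Z.isUnit.unit

theorem coe_u : (Z.u : A) = 1 + Z.ϖ := Z.isUnit.unit_spec

theorem coe_coe_u : ((Z.u : A) : Kb) = Z.ζ := by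
  rw [coe_u]
  push_cast
  rw [Z.coe_ϖ]; ring

theorem residue_u : IsLocalRing.residue A (Z.u : A) = 1 := by
  rw [coe_u, map_add, map_one, (IsLocalRing.residue_eq_zero_iff _).mpr Z.mem, add_zero]

theorem dvd_u_sub_one : Z.ϖ ∣ (Z.u : A) - 1 := by
  rw [coe_u, add_sub_cancel_left]

theorem prim_u : IsPrimitiveRoot (Z.u : A) p :=
  IsPrimitiveRoot.of_map_of_injective (f := A.subtype) (by
    show IsPrimitiveRoot ((Z.u : A) : Kb) p
    rw [coe_coe_u]; exact Z.prim) Subtype.val_injective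

theorem prim_map : IsPrimitiveRoot (Units.map (A.subtype : A →* Kb) Z.u) p := by
  rw [← IsPrimitiveRoot.coe_units_iff]
  show IsPrimitiveRoot ((Z.u : A) : Kb) p
  rw [coe_coe_u]; exact Z.prim

theorem dvd_p (hp : p.Prime) : Z.ϖ ∣ (p : A) := by
  haveI : Fact p.Prime := ⟨hp⟩
  have h1 := Polynomial.cyclotomic_eq_prod_X_sub_primitiveRoots Z.prim_u
  have h2 := congrArg (Polynomial.eval 1) h1
  rw [Polynomial.eval_one_cyclotomic_prime, Polynomial.eval_prod] at h2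
  rw [h2]
  refine Dvd.dvd.trans ?_ (Finset.dvd_prod_of_mem _
    ((mem_primitiveRoots hp.pos).mpr Z.prim_u))
  rw [Polynomial.eval_sub, Polynomial.eval_X, Polynomial.eval_C, coe_u]
  exact ⟨-1, by ring⟩

end ZetaData

theorem exists_zetaData {p : ℕ} (hp : p.Prime) (hA : A.LiesOverPrime p) : Nonempty (ZetaData A p) := by
  haveI : NeZero p := ⟨hp.ne_zero⟩
  haveI : Fact p.Prime := ⟨hp⟩
  haveI : CharP (kA A) p := charP_kA hp hA
  obtain ⟨ζ0, hζ0⟩ := HasEnoughRootsOfUnity.exists_primitiveRoot Kb p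
  have hmem : ζ0 ∈ A := mem_of_pow_mem (p := p) hp.ne_zero (by rw [hζ0.pow_eq_one]; exact A.one_mem)
  refine ⟨⟨ζ0, hζ0, ⟨ζ0, hmem⟩ - 1, by push_cast; rfl, ?_⟩⟩
  rw [← IsLocalRing.residue_eq_zero_iff, map_sub, map_one, sub_eq_zero]
  have h1 : (IsLocalRing.residue A ⟨ζ0, hmem⟩) ^ p = 1 := by
    rw [← map_pow]
    have : (⟨ζ0, hmem⟩ : A) ^ p = 1 := Subtype.ext hζ0.pow_eq_one
    rw [this, map_one]
  have h2 : (IsLocalRing.residue A ⟨ζ0, hmem⟩ - 1) ^ p = 0 := by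
    rw [sub_pow_char, h1, one_pow, sub_self]
  exact sub_eq_zero.mp (pow_eq_zero_iff hp.ne_zero |>.mp h2)

/-! ### (N) + (U') -/

section Norm

variable {M1 p : ℕ} [NeZero M1] [NeZero p]

/-- **(N) + (U')** : `W_p u ≡ 1 (c)` at `v_∞` ⟹ `α (N_α u) / u ≡ 1 (ϖ c, c ^ p)` at `v_∞` -/
theorem congS_normAlpha (hp : p.Prime) (h : Nat.Coprime p M1) (Z : ZetaData A p) {c d : A}
    (hd1 : d ∣ Z.ϖ * c) (hd2 : d ∣ c ^ p) (u : FN (M1 * p)) (hu : u ≠ 0)
    (hW : CongS A c (Wq h u : LaurentSeries Kb)) :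
    CongS A d ((heckeAlphaBar Kb M1 p (normAlpha M1 p u) * u⁻¹ : FN (M1 * p)) : LaurentSeries Kb) := by
  have hN : ¬ p ∣ M1 := (Nat.Prime.coprime_iff_not_dvd hp).mp h
  have key := Fermat.Agent.S37.qExpand_normAlpha M1 p hp hN (Wq h) (Wq_alpha h) (Wq_beta h)
    (Units.map (A.subtype : A →* Kb) Z.u) Z.prim_map u
  have e1 : qExpand Kb p ((normAlpha M1 p u : FN M1) : LaurentSeries Kb) =
      qExpand Kb p (u : LaurentSeries Kb) *
        ∏ j ∈ Finset.range p, twist (Units.map (A.subtype : A →* Kb) (Z.u ^ j))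
          (Wq h u : LaurentSeries Kb) := by
    refine key.trans ?_
    congr 1
  apply congS_of_qExpand p
  have hu' : (u : LaurentSeries Kb) ≠ 0 := fun h0 => hu (Subtype.ext h0)
  have hq : qExpand Kb p (u : LaurentSeries Kb) ≠ 0 := by
    rw [Ne, map_eq_zero_iff _ (qExpand_injective (R := Kb) p)]; exact hu'
  have e2 : qExpand Kb p ((heckeAlphaBar Kb M1 p (normAlpha M1 p u) * u⁻¹ : FN (M1 * p)) :
      LaurentSeries Kb) = ∏ j ∈ Finset.range p, twist (Units.map (A.subtype : A →* Kb) (Z.u ^ j))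
          (Wq h u : LaurentSeries Kb) := by
    show qExpand Kb p (((heckeAlphaBar Kb M1 p (normAlpha M1 p u) : FN (M1 * p)) : LaurentSeries Kb) *
      (u : LaurentSeries Kb)⁻¹) = _
    rw [coe_heckeAlphaBar, map_mul, e1, map_inv₀, mul_comm (qExpand Kb p (u : LaurentSeries Kb)),
      mul_assoc, mul_inv_cancel₀ hq, mul_one]
  rw [e2]
  exact hW.prod_twist hp Z.u Z.residue_u Z.dvd_u_sub_one (Z.dvd_p hp) hd1 hd2

/-- `T_p u = u(q ^ p) U(u)` : `u ≡ 1 (c)` ⟹ `T_p u / u(q ^ p) ≡ 1 (ϖ c, c ^ p)` -/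
theorem congS_Tl (hp : p.Prime) (h : Nat.Coprime p M1) (Z : ZetaData A p) {c d : A}
    (hd1 : d ∣ Z.ϖ * c) (hd2 : d ∣ c ^ p) (u : FN M1) (hu : u ≠ 0)
    (hc : CongS A c (u : LaurentSeries Kb)) :
    CongS A d ((Tl M1 p u : LaurentSeries Kb) * (qExpand Kb p (u : LaurentSeries Kb))⁻¹) := by
  have hb : heckeBetaBar Kb M1 p u ≠ 0 := by
    rw [Ne, map_eq_zero]; exact hu
  have := congS_normAlpha hp h Z hd1 hd2 (heckeBetaBar Kb M1 p u) hb (by
    rw [Wq_beta, coe_heckeAlphaBar]; exact hc)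
  exact this

theorem congS_alpha {c : A} {u : FN M1} :
    CongS A c ((heckeAlphaBar Kb M1 p u : FN (M1 * p)) : LaurentSeries Kb) ↔
      CongS A c (u : LaurentSeries Kb) := by
  rw [coe_heckeAlphaBar]

theorem congS_beta {c : A} {u : FN M1} :
    CongS A c ((heckeBetaBar Kb M1 p u : FN (M1 * p)) : LaurentSeries Kb) ↔
      CongS A c (u : LaurentSeries Kb) := by
  rw [coe_heckeBetaBar]
  exact ⟨congS_of_qExpand p u, CongS.qExpand p⟩

end Norm

theorem congS_gal {σ : GQ} (hσ : σ ∈ A.decompositionSubgroup ℚ) {c : A} {u : FN N}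
    (h : CongS A c (u : LaurentSeries Kb)) :
    CongS A ⟨σ c, map_mem_of_decomp hσ c.2⟩ ((gal N σ u : FN N) : LaurentSeries Kb) :=
  h.conj hσ

end Fermat.Agent.S33
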