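import Fermat.Agent.S33.Val.Gauss
import Fermat.Agent.S33.Val.Cyc
import Fermat.Agent.S37.NormQ
import Fermat.Agent.S33.Ser.FN

/-!
# S33/SER : the contraction property of the norm `F_{M1 p} → F_{M1}`          key `S33/SER`

`q = p`, `M = M1 p`, `W = Wq hc`, `al = heckeAlphaBar`, `Nm = normAlpha M1 p`.  `S37.qExpand_normAlpha`:
      `(Nm x)(t^p) = x(t^p) · ∏_{b<p} (W x)(ζ^b t)`     (`qExpand Kb p`, `twistFun (ζ^b)`).

**Theorem `GE_norm_div`.**  `W x ≡ 1 (t₀)`, `t₀ > 0` ⟹ `al(Nm x)/x ≡ 1 (min (t₀ + 1/(p-1), p t₀))` for the Gauss valuation at `∞`.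

## Proof
`W x - 1` is `0` or has value `w c ≥ t₀`; `exists_series_of_GE`: `(W x - 1) y₂ = c y₁`, `y₁ y₂ ∈ A((t))`, `red y₂ ≠ 0`, i.e. `W x = (y₂ + c y₁)/y₂`.
For `y ∈ A((t))` put `P(y) = ∏_{b<p} twist (ζ^b) y ∈ A((t))`; multiplicative.
(a) `P(y₂ + c y₁) - P(y₂) ∈ (ϖ c, c^p) A((t))`, `ϖ = ζ - 1`:  expand the product over subsets `S ⊆ {0..p-1}`: `∑_S c^|S| ∏_{b∈S} y₁^(b) ∏_{b∉S} y₂^(b)`; `y^(b) ≡ y` mod `ϖ` (coefficients `ζ^(bn) a_n`);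
    so the sum over `|S| = j` is `≡ C(p,j) y₁^j y₂^(p-j)` mod `ϖ`, which is `≡ 0` mod `ϖ` for `0 < j < p` (`p ∈ ϖ A`); `j = p` gives `c^p P(y₁)`.
    [Alternative: induction-free: `∏ (u_b + c v_b) - ∏ u_b - c^p ∏ v_b` with `u_b ≡ u`, `v_b ≡ v` mod `ϖ` equals `(u + c v)^p - u^p - c^p v^p` modulo `ϖ c`.]
(b) `red P(y₂) = (red y₂)^p ≠ 0` (`ζ ≡ 1`; see `S35/NormRed.lean`, `S37.intQ_normAlpha_beta`).
(c) `P(y)` is invariant under `t ↦ ζ t`, so `P(y) = qExpand p (Y)`, `Y ∈ A((t))` (as in `intQ_normAlpha_beta`: `exists_lift_of_coeff_mem`, `qExpand_coeff_mul`).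
(d) `X := al(Nm x)/x`: `qExpand p X = P(W x) = P(y₂ + c y₁)/P(y₂)`; so `(X - 1) Y₂ = d Y₃` with `w d = min (w ϖ + w c, p w c)`, `Y₃ ∈ A((t))`, by injectivity of `qExpand p`.  `GE_of_series`.
-/

set_option autoImplicit false
set_option synthInstance.maxHeartbeats 400000

open HahnSeries ModularCurve AlgebraicCurve Fermat.Agent.S24 Fermat.Agent.S29 Fermat.Agent.S18
  Fermat.Agent.ES Fermat.Agent.ES.Alg Fermat.Agent.S34.Mod Fermat.Agent.S05 Fermat.Agent.S55.B ExtCitation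
open Fermat.Agent.S55 (Dq Iq)

noncomputable section

namespace Fermat.Agent.S33

variable {q : Nat.Primes} {M1 : ℕ} [NeZero M1] [NeZero (q : ℕ)]

/-- [S33/SER] -/
theorem GE_norm_div (hc : Nat.Coprime (q : ℕ) M1) {x : FN (M1 * (q : ℕ))} (hx : x ≠ 0) {t : ℝ}
    (ht : 0 < t) (h : (wG q (M1 * (q : ℕ))).GE (Wq hc x - 1) t) :
    (wG q (M1 * (q : ℕ))).GE (heckeAlphaBar Kb M1 (q : ℕ) (normAlpha M1 (q : ℕ) x) / x - 1)
      (min (t + 1 / (((q : ℕ) : ℝ) - 1)) ((q : ℕ) * t)) := by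
  by_cases hy0 : Wq hc x - 1 = 0
  · have h1 : Wq hc x = 1 := sub_eq_zero.mp hy0
    have h2 : x = 1 := by
      have := congrArg (Wq hc) h1
      rwa [Wq_Wq, map_one] at this
    left
    rw [h2, map_one, map_one, div_one, sub_self]
  have htw : t ≤ (wG q (M1 * (q : ℕ))).w (Wq hc x - 1) := h.le_w hy0
  obtain ⟨c, u, hc0, hy, hu, -, hw⟩ := exists_wG_eq (q := q) hy0
  rw [hw] at htw
  have hcA : c ∈ AA q := (wq_nonneg_iff q hc0).mp (by linarith)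
  have hW : CongS (AA q) ⟨c, hcA⟩ (Wq hc x : LaurentSeries Kb) :=
    (dvdS_iff (A := AA q) (c := ⟨c, hcA⟩) (x := Wq hc x - 1)).mpr ⟨u, hu, hy⟩
  obtain ⟨Z⟩ := exists_zetaData (A := AA q) q.2 (Fermat.Agent.S55.D.liesOverPrime_primeLocalPlace q)
  have hwϖ := w_pi q Z.prim
  rw [← Z.coe_ϖ] at hwϖ
  have key : ∀ d : AA q, (d : Kb) ≠ 0 → d ∣ Z.ϖ * ⟨c, hcA⟩ → d ∣ (⟨c, hcA⟩ : AA q) ^ (q : ℕ) →
      (wG q (M1 * (q : ℕ))).GE (heckeAlphaBar Kb M1 (q : ℕ) (normAlpha M1 (q : ℕ) x) / x - 1)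
        ((wq q).w (d : Kb)) := by
    intro d hd0 hd1 hd2
    have h3 := congS_normAlpha q.2 hc Z hd1 hd2 x hx hW
    rw [div_eq_mul_inv]
    exact (GE_iff hd0).mpr ((dvdS_iff (A := AA q) (c := d)
      (x := heckeAlphaBar Kb M1 (q : ℕ) (normAlpha M1 (q : ℕ) x) * x⁻¹ - 1)).mp h3)
  rcases ValuationRing.dvd_total (Z.ϖ * ⟨c, hcA⟩) ((⟨c, hcA⟩ : AA q) ^ (q : ℕ)) with hd | hd
  · have h4 := key (Z.ϖ * ⟨c, hcA⟩) (mul_ne_zero hwϖ.ne_zero hc0) dvd_rfl hd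
    have e : (wq q).w ((Z.ϖ * ⟨c, hcA⟩ : AA q) : Kb) = 1 / (((q : ℕ) : ℝ) - 1) + (wq q).w c :=
      (hwϖ.mul (RVal.EQ_self hc0)).w_eq
    rw [e] at h4
    exact h4.mono ((min_le_left _ _).trans (by linarith))
  · have h4 := key ((⟨c, hcA⟩ : AA q) ^ (q : ℕ)) (pow_ne_zero _ hc0) hd dvd_rfl
    have e : (wq q).w (((⟨c, hcA⟩ : AA q) ^ (q : ℕ) : AA q) : Kb) = (q : ℕ) * (wq q).w c :=
      ((RVal.EQ_self hc0).pow (q : ℕ)).w_eq
    rw [e] at h4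
    refine h4.mono ((min_le_right _ _).trans ?_)
    exact mul_le_mul_of_nonneg_left htw (Nat.cast_nonneg _)

/-- consequence: the norm of a function `≡ 1` on both components is `≡ 1` -/
theorem GT_normAlpha_sub_one (hc : Nat.Coprime (q : ℕ) M1) {x : FN (M1 * (q : ℕ))}
    (h1 : (wG q (M1 * (q : ℕ))).GT (x - 1) 0) (h2 : (wG q (M1 * (q : ℕ))).GT (Wq hc x - 1) 0) :
    (wG q M1).GT (normAlpha M1 (q : ℕ) x - 1) 0 := by
  have hC1 : Cong (AA q) (M1 * (q : ℕ)) x := cong_iff_GT.mpr h1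
  have hx : x ≠ 0 := hC1.ne_zero
  obtain ⟨c, hc0, hcpos, hge⟩ := exists_of_GT h2
  have h3 := GE_norm_div hc hx hcpos hge
  have hq1 : (1 : ℝ) < ((q : ℕ) : ℝ) := by exact_mod_cast q.2.one_lt
  have hpos : 0 < min ((wq q).w c + 1 / (((q : ℕ) : ℝ) - 1)) ((q : ℕ) * (wq q).w c) := by
    apply lt_min
    · have : 0 < 1 / (((q : ℕ) : ℝ) - 1) := by
        apply div_pos one_pos; linarith
      linarith
    · exact mul_pos (by linarith) hcpos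
  have hC2 : Cong (AA q) (M1 * (q : ℕ))
      (heckeAlphaBar Kb M1 (q : ℕ) (normAlpha M1 (q : ℕ) x) / x) := cong_iff_GT.mpr (h3.GT hpos)
  have hC3 := hC2.mul hC1
  rw [div_mul_cancel₀ _ hx] at hC3
  have h4 := cong_iff_GT.mp hC3
  have e : heckeAlphaBar Kb M1 (q : ℕ) (normAlpha M1 (q : ℕ) x) - 1 =
      heckeAlphaBar Kb M1 (q : ℕ) (normAlpha M1 (q : ℕ) x - 1) := by
    rw [map_sub, map_one]
  rw [e] at h4
  rcases h4 with h4 | h4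
  · left
    exact (map_eq_zero _).mp h4
  · right
    rwa [wG_alpha] at h4

end Fermat.Agent.S33
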