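import Fermat.Agent.S35.NormRed
import Fermat.Agent.S34.Mod.Res

/-!
# S33/SER, part 1 : congruences `s ≡ 1 (c)` for the Gauss valuation of `Kb((q))`      (helper19)

`A` a valuation subring of `Kb`.

* `VS A : Subring (LaurentSeries Kb)` : the Gauss valuation ring (`s = y₁ / y₂`, `yᵢ ∈ A((q))`, `red y₂ ≠ 0`; `S35.Rd`).
  For `x : FN N` : `x ∈ Vinf A N ↔ (x : Kb((q))) ∈ VS A` (`mem_Vinf_iff`).
* `DvdS A c x` : `x ∈ c VS`  (`c : A`).
* `CongS A c s` : `s - 1 ∈ c VS`.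

API: `one, mul, inv, pow, mono, qExpand, twist, conj`; **binomial** `CongS.pow_prime`; **(U')** `CongS.prod_twist`;
for `FN N`: `congS_iff`, `congS_of_qExpand`, `cong_iff_congS`; **(N)+(U')** `congS_normAlpha`.
-/

set_option autoImplicit false
set_option synthInstance.maxHeartbeats 400000

open HahnSeries ModularCurve AlgebraicCurve Fermat.Agent.S24 Fermat.Agent.S29 Fermat.Agent.S18
  Fermat.Agent.ES.Alg Fermat.Agent.S34.Mod Fermat.Agent.S35

noncomputable section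

namespace Fermat.Agent.S33

variable (A : ValuationSubring Kb)

/-- the Gauss valuation ring of `Kb((q))` -/
def VS : Subring (LaurentSeries Kb) where
  carrier := {s | ∃ r, Rd A s r}
  mul_mem' := fun ⟨_, h⟩ ⟨_, h'⟩ => ⟨_, h.mul h'⟩
  one_mem' := ⟨1, Rd.one⟩
  add_mem' := fun ⟨_, h⟩ ⟨_, h'⟩ => ⟨_, h.add h'⟩
  zero_mem' := ⟨0, Rd.zero⟩
  neg_mem' := fun ⟨_, h⟩ => ⟨_, h.neg⟩

/-- `x ∈ c VS` -/
def DvdS (c : A) (x : LaurentSeries Kb) : Prop := ∃ w ∈ VS A, x = cK (c : Kb) * w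

/-- `s ≡ 1` modulo `c VS` -/
def CongS (c : A) (s : LaurentSeries Kb) : Prop := DvdS A c (s - 1)

variable {A}

theorem mem_VS {s : LaurentSeries Kb} : s ∈ VS A ↔ ∃ r, Rd A s r := Iff.rfl

theorem cK_mem_VS (a : A) : cK (a : Kb) ∈ VS A := ⟨_, Rd.const a⟩

theorem coeffMap_mem_VS (y : LaurentSeries A) : coeffMap A.subtype y ∈ VS A := ⟨_, Rd.of_int y⟩

section DvdS

variable {c d : A} {x x' v : LaurentSeries Kb}

theorem DvdS.mem (h : DvdS A c x) : x ∈ VS A := by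
  obtain ⟨w, hw, rfl⟩ := h
  exact mul_mem (cK_mem_VS c) hw

theorem DvdS.zero : DvdS A c 0 := ⟨0, zero_mem _, by rw [mul_zero]⟩

theorem DvdS.of_mem (h : x ∈ VS A) : DvdS A c (cK (c : Kb) * x) := ⟨x, h, rfl⟩

theorem DvdS.add (h : DvdS A c x) (h' : DvdS A c x') : DvdS A c (x + x') := by
  obtain ⟨w, hw, rfl⟩ := h
  obtain ⟨w', hw', rfl⟩ := h'
  exact ⟨w + w', add_mem hw hw', by rw [mul_add]⟩

theorem DvdS.neg (h : DvdS A c x) : DvdS A c (-x) := by
  obtain ⟨w, hw, rfl⟩ := h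
  exact ⟨-w, neg_mem hw, by rw [mul_neg]⟩

theorem DvdS.sub (h : DvdS A c x) (h' : DvdS A c x') : DvdS A c (x - x') := by
  rw [sub_eq_add_neg]; exact h.add h'.neg

theorem DvdS.mul_left (hv : v ∈ VS A) (h : DvdS A c x) : DvdS A c (v * x) := by
  obtain ⟨w, hw, rfl⟩ := h
  exact ⟨v * w, mul_mem hv hw, by ring⟩

theorem DvdS.mul_right (hv : v ∈ VS A) (h : DvdS A c x) : DvdS A c (x * v) := by
  rw [mul_comm]; exact h.mul_left hv

theorem DvdS.mono (hd : d ∣ c) (h : DvdS A c x) : DvdS A d x := by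
  obtain ⟨w, hw, rfl⟩ := h
  obtain ⟨e, rfl⟩ := hd
  refine ⟨cK (e : Kb) * w, mul_mem (cK_mem_VS e) hw, ?_⟩
  rw [← mul_assoc, ← cK_mul]
  rfl

theorem DvdS.mul {c' : A} (h : DvdS A c x) (h' : DvdS A c' x') : DvdS A (c * c') (x * x') := by
  obtain ⟨w, hw, rfl⟩ := h
  obtain ⟨w', hw', rfl⟩ := h'
  refine ⟨w * w', mul_mem hw hw', ?_⟩
  have : cK ((c * c' : A) : Kb) = cK (c : Kb) * cK (c' : Kb) := by rw [← cK_mul]; rfl
  rw [this]; ring

theorem DvdS.const_mul {c' : A} (h : DvdS A c x) : DvdS A (c' * c) (cK (c' : Kb) * x) := by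
  have h1 : DvdS A c' (cK (c' : Kb)) := ⟨1, one_mem _, by rw [mul_one]⟩
  exact h1.mul h

theorem DvdS.pow (h : DvdS A c x) (n : ℕ) : DvdS A (c ^ n) (x ^ n) := by
  induction n with
  | zero => exact ⟨1, one_mem _, by simp⟩
  | succ n ih => rw [pow_succ, pow_succ]; exact ih.mul h

theorem DvdS.sum {ι : Type*} (T : Finset ι) (f : ι → LaurentSeries Kb)
    (h : ∀ i ∈ T, DvdS A c (f i)) : DvdS A c (∑ i ∈ T, f i) := by
  classical
  induction T using Finset.induction_on with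
  | empty => rw [Finset.sum_empty]; exact DvdS.zero
  | insert a T ha ih =>
    rw [Finset.sum_insert ha]
    exact (h a (Finset.mem_insert_self a T)).add (ih fun i hi => h i (Finset.mem_insert_of_mem hi))

/-- congruent factors have congruent products -/
theorem DvdS.prod_sub {ι : Type*} (T : Finset ι) (f g : ι → LaurentSeries Kb)
    (hf : ∀ i ∈ T, f i ∈ VS A) (hg : ∀ i ∈ T, g i ∈ VS A) (h : ∀ i ∈ T, DvdS A c (f i - g i)) :
    DvdS A c (∏ i ∈ T, f i - ∏ i ∈ T, g i) := by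
  classical
  induction T using Finset.induction_on with
  | empty => rw [Finset.prod_empty, Finset.prod_empty, sub_self]; exact DvdS.zero
  | insert a T ha ih =>
    rw [Finset.prod_insert ha, Finset.prod_insert ha]
    have h1 := ih (fun i hi => hf i (Finset.mem_insert_of_mem hi))
      (fun i hi => hg i (Finset.mem_insert_of_mem hi)) (fun i hi => h i (Finset.mem_insert_of_mem hi))
    have h2 : (∏ i ∈ T, g i) ∈ VS A :=
      Subring.prod_mem _ fun i hi => hg i (Finset.mem_insert_of_mem hi)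
    have e : f a * ∏ i ∈ T, f i - g a * ∏ i ∈ T, g i =
        f a * (∏ i ∈ T, f i - ∏ i ∈ T, g i) + (f a - g a) * ∏ i ∈ T, g i := by ring
    rw [e]
    exact (h1.mul_left (hf a (Finset.mem_insert_self a T))).add
      ((h a (Finset.mem_insert_self a T)).mul_right h2)

theorem DvdS.qExpand (ℓ : ℕ) [NeZero ℓ] (h : DvdS A c x) : DvdS A c (qExpand Kb ℓ x) := by
  obtain ⟨w, ⟨r, hw⟩, rfl⟩ := h
  exact ⟨qExpand Kb ℓ w, ⟨_, hw.qExpand ℓ⟩, by rw [map_mul, qExpand_cK]⟩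

theorem DvdS.twist (ζ : Aˣ) (hζ : IsLocalRing.residue A (ζ : A) = 1) (h : DvdS A c x) :
    DvdS A c (ES.Alg.twist (Units.map (A.subtype : A →* Kb) ζ) x) := by
  obtain ⟨w, ⟨r, hw⟩, rfl⟩ := h
  exact ⟨_, ⟨_, hw.twist ζ hζ⟩, by rw [map_mul, twist_cK]⟩

theorem DvdS.conj {σ : GQ} (hσ : σ ∈ A.decompositionSubgroup ℚ) (h : DvdS A c x) :
    DvdS A ⟨σ c, map_mem_of_decomp hσ c.2⟩ (coeffMap (σ : Kb →+* Kb) x) := by
  obtain ⟨w, ⟨r, hw⟩, rfl⟩ := h
  obtain ⟨φ, hφ⟩ := exists_residueMap hσ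
  refine ⟨_, ⟨_, hw.conj hσ φ hφ⟩, ?_⟩
  rw [map_mul, coeffMap_algebraMap]
  rfl

end DvdS

section CongS

variable {c d : A} {s s' : LaurentSeries Kb}

theorem CongS.mem (h : CongS A c s) : s ∈ VS A := by
  have := add_mem (DvdS.mem h) (one_mem (VS A))
  rwa [sub_add_cancel] at this

theorem CongS.one : CongS A c 1 := by
  show DvdS A c (1 - 1)
  rw [sub_self]; exact DvdS.zero

theorem CongS.mono (hd : d ∣ c) (h : CongS A c s) : CongS A d s := DvdS.mono hd h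

theorem CongS.mul (h : CongS A c s) (h' : CongS A c s') : CongS A c (s * s') := by
  have e : s * s' - 1 = (s - 1) * s' + (s' - 1) := by ring
  show DvdS A c (s * s' - 1)
  rw [e]
  exact (DvdS.mul_right h'.mem h).add h'

theorem CongS.pow (h : CongS A c s) (n : ℕ) : CongS A c (s ^ n) := by
  induction n with
  | zero => rw [pow_zero]; exact CongS.one
  | succ n ih => rw [pow_succ]; exact ih.mul h

theorem CongS.prod {ι : Type*} (T : Finset ι) (f : ι → LaurentSeries Kb)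
    (h : ∀ i ∈ T, CongS A c (f i)) : CongS A c (∏ i ∈ T, f i) := by
  classical
  induction T using Finset.induction_on with
  | empty => rw [Finset.prod_empty]; exact CongS.one
  | insert a T ha ih =>
    rw [Finset.prod_insert ha]
    exact (h a (Finset.mem_insert_self a T)).mul (ih fun i hi => h i (Finset.mem_insert_of_mem hi))

/-- the reduction of `s ≡ 1 (c)`, `c ∈ 𝔪`, is `1` -/
theorem CongS.rd (hc : c ∈ IsLocalRing.maximalIdeal A) (h : CongS A c s) : Rd A s 1 := by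
  obtain ⟨w, ⟨r, hw⟩, e⟩ := h
  have h1 : Rd A (cK (c : Kb) * w + 1) (ck A (IsLocalRing.residue A c) * r + 1) :=
    ((Rd.const c).mul hw).add Rd.one
  rw [(IsLocalRing.residue_eq_zero_iff c).mpr hc, ck_zero, zero_mul, zero_add, ← e,
    sub_add_cancel] at h1
  exact h1

theorem CongS.ne_zero (hc : c ∈ IsLocalRing.maximalIdeal A) (h : CongS A c s) : s ≠ 0 :=
  (h.rd hc).ne_zero one_ne_zero

theorem CongS.inv (hc : c ∈ IsLocalRing.maximalIdeal A) (h : CongS A c s) : CongS A c s⁻¹ := by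
  have h0 := h.ne_zero hc
  have h1 : s⁻¹ ∈ VS A := ⟨_, (h.rd hc).inv one_ne_zero⟩
  have e : s⁻¹ - 1 = -((s - 1) * s⁻¹) := by
    rw [sub_mul, mul_inv_cancel₀ h0, one_mul]; ring
  show DvdS A c (s⁻¹ - 1)
  rw [e]
  exact (DvdS.mul_right h1 h).neg

theorem CongS.div (hc : c ∈ IsLocalRing.maximalIdeal A) (h : CongS A c s) (h' : CongS A c s') :
    CongS A c (s / s') := by
  rw [div_eq_mul_inv]; exact h.mul (h'.inv hc)

theorem CongS.qExpand (ℓ : ℕ) [NeZero ℓ] (h : CongS A c s) : CongS A c (qExpand Kb ℓ s) := by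
  have := DvdS.qExpand ℓ h
  rwa [map_sub, map_one] at this

theorem CongS.twist (ζ : Aˣ) (hζ : IsLocalRing.residue A (ζ : A) = 1) (h : CongS A c s) :
    CongS A c (ES.Alg.twist (Units.map (A.subtype : A →* Kb) ζ) s) := by
  have := DvdS.twist ζ hζ h
  rwa [map_sub, map_one] at this

theorem CongS.conj {σ : GQ} (hσ : σ ∈ A.decompositionSubgroup ℚ) (h : CongS A c s) :
    CongS A ⟨σ c, map_mem_of_decomp hσ c.2⟩ (coeffMap (σ : Kb →+* Kb) s) := by
  have := DvdS.conj hσ h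
  rwa [map_sub, map_one] at this

/-- **binomial**: `s = 1 + x`, `x ∈ c VS`: `s ^ p ≡ 1 + x ^ p` modulo `p c` -/
theorem DvdS.add_pow_prime {p : ℕ} (hp : p.Prime) {x : LaurentSeries Kb} (h : DvdS A c x) :
    DvdS A ((p : A) * c) ((1 + x) ^ p - 1 - x ^ p) := by
  have e := add_pow_prime_eq hp 1 x
  have e2 : (1 + x) ^ p - 1 - x ^ p = cK (((p : A) : A) : Kb) * (x *
      ∑ k ∈ Finset.Ioo 0 p, 1 ^ (k - 1) * x ^ (p - k - 1) * ((p.choose k / p : ℕ) : LaurentSeries Kb)) := by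
    rw [e, one_pow]
    have : cK (((p : A) : A) : Kb) = (p : LaurentSeries Kb) := by
      simp
    rw [this]
    ring
  rw [e2]
  refine DvdS.const_mul (DvdS.mul_right ?_ h)
  refine Subring.sum_mem _ fun k _ => ?_
  exact mul_mem (mul_mem (pow_mem (one_mem _) _) (pow_mem h.mem _)) (natCast_mem _ _)

theorem CongS.pow_prime {p : ℕ} (hp : p.Prime) (hd1 : d ∣ (p : A) * c) (hd2 : d ∣ c ^ p)
    (h : CongS A c s) : CongS A d (s ^ p) := by
  have h1 := (DvdS.add_pow_prime hp h).mono hd1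
  have h2 := (DvdS.pow h p).mono hd2
  have := h1.add h2
  rw [add_sub_cancel, sub_add_cancel] at this
  exact this

end CongS

section Twist

theorem sub_one_dvd_zpow_sub_one (ζ : Aˣ) (n : ℤ) : (ζ : A) - 1 ∣ ((ζ ^ n : Aˣ) : A) - 1 := by
  obtain ⟨m, rfl | rfl⟩ := n.eq_nat_or_neg
  · rw [zpow_natCast, Units.val_pow_eq_pow_val]
    exact sub_one_dvd_pow_sub_one _ _
  · have e : ((ζ ^ (-(m : ℤ)) : Aˣ) : A) - 1 = -(((ζ ^ (-(m : ℤ)) : Aˣ) : A) * ((ζ : A) ^ m - 1)) := by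
      have h1 : ((ζ ^ (-(m : ℤ)) : Aˣ) : A) * (ζ : A) ^ m = 1 := by
        rw [← Units.val_pow_eq_pow_val, ← Units.val_mul, zpow_neg, zpow_natCast, inv_mul_cancel,
          Units.val_one]
      rw [mul_sub, h1, mul_one]; ring
    rw [e]
    exact (Dvd.dvd.mul_left (sub_one_dvd_pow_sub_one _ _) _).neg_right

/-- `y(ζ q) ≡ y(q)` modulo `ϖ ∣ ζ - 1`, for integral `y` -/
theorem exists_twist_eq (ζ : Aˣ) {ϖ : A} (hϖ : ϖ ∣ (ζ : A) - 1) (y : LaurentSeries A) :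
    ∃ y' : LaurentSeries A, coeffMap A.subtype (twist ζ y) =
      coeffMap A.subtype y + cK (ϖ : Kb) * coeffMap A.subtype y' := by
  have hdvd : ∀ n : ℤ, ∃ a : A, ((ζ ^ n : Aˣ) : A) - 1 = ϖ * a := fun n =>
    hϖ.trans (sub_one_dvd_zpow_sub_one ζ n)
  choose a ha using hdvd
  refine ⟨⟨fun n => a n * y.coeff n, y.isPWO_support.mono fun n hn h0 => hn ?_⟩, ?_⟩
  · show a n * y.coeff n = 0
    rw [h0, mul_zero]
  · ext n
    rw [HahnSeries.coeff_add, KLAux.algebraMap_mul_coeff, coeffMap_coeff, coeffMap_coeff,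
      coeffMap_coeff, twist_coeff]
    show (((ζ ^ n : Aˣ) : A) * y.coeff n : A).1 = (y.coeff n : Kb) + (ϖ : Kb) * ((a n * y.coeff n : A) : Kb)
    have : ((ζ ^ n : Aˣ) : A) = 1 + ϖ * a n := by rw [← ha n]; ring
    rw [this]
    push_cast
    ring

/-- `w(ζ q) ≡ w(q)` modulo `ϖ ∣ ζ - 1` on the Gauss valuation ring -/
theorem DvdS.twist_sub (ζ : Aˣ) (hζ : IsLocalRing.residue A (ζ : A) = 1) {ϖ : A}
    (hϖ : ϖ ∣ (ζ : A) - 1) {w : LaurentSeries Kb} (hw : w ∈ VS A) :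
    DvdS A ϖ (ES.Alg.twist (Units.map (A.subtype : A →* Kb) ζ) w - w) := by
  have hw' := hw
  obtain ⟨r, y1, y2, h2, hs, -⟩ := hw
  obtain ⟨z1, hz1⟩ := exists_twist_eq ζ hϖ y1
  obtain ⟨z2, hz2⟩ := exists_twist_eq ζ hϖ y2
  have h1 : Units.map ((IsLocalRing.residue A : A →+* kA A) : A →* kA A) ζ = 1 := Units.ext hζ
  have hred : red A (ES.Alg.twist ζ y2) ≠ 0 := by
    rw [coeffMap_twist, h1, twist_one]; exact h2
  have hT0 : coeffMap A.subtype (ES.Alg.twist ζ y2) ≠ 0 := ne_zero_of_red_ne_zero hred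
  have hTinv : (coeffMap A.subtype (ES.Alg.twist ζ y2))⁻¹ ∈ VS A := ⟨_, (Rd.of_int _).inv hred⟩
  set tw := ES.Alg.twist (Units.map (A.subtype : A →* Kb) ζ) with htw
  have e1 : tw w * coeffMap A.subtype (ES.Alg.twist ζ y2) = coeffMap A.subtype (ES.Alg.twist ζ y1) := by
    rw [coeffMap_twist, coeffMap_twist, ← hs, map_mul]
  have e2 : (tw w - w) * coeffMap A.subtype (ES.Alg.twist ζ y2) =
      cK (ϖ : Kb) * (coeffMap A.subtype z1 - w * coeffMap A.subtype z2) := by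
    rw [sub_mul, e1, hz1, hz2, mul_add, hs]; ring
  refine ⟨(coeffMap A.subtype z1 - w * coeffMap A.subtype z2) *
    (coeffMap A.subtype (ES.Alg.twist ζ y2))⁻¹, ?_, ?_⟩
  · exact mul_mem (sub_mem (coeffMap_mem_VS z1) (mul_mem hw' (coeffMap_mem_VS z2))) hTinv
  · rw [← mul_assoc, ← e2, mul_assoc, mul_inv_cancel₀ hT0, mul_one]

/-- **(U')** : `s ≡ 1 (c)` ⟹ `∏_b s(ζ^b q) ≡ 1 (ϖ c, c ^ p)` -/
theorem CongS.prod_twist {p : ℕ} (hp : p.Prime) (ζ : Aˣ) (hζ : IsLocalRing.residue A (ζ : A) = 1)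
    {ϖ : A} (hϖ : ϖ ∣ (ζ : A) - 1) (hϖp : ϖ ∣ (p : A)) {c d : A} (hd1 : d ∣ ϖ * c) (hd2 : d ∣ c ^ p)
    {s : LaurentSeries Kb} (h : CongS A c s) :
    CongS A d (∏ b ∈ Finset.range p, ES.Alg.twist (Units.map (A.subtype : A →* Kb) (ζ ^ b)) s) := by
  have hres : ∀ b : ℕ, IsLocalRing.residue A ((ζ ^ b : Aˣ) : A) = 1 := fun b => by
    rw [Units.val_pow_eq_pow_val, map_pow, hζ, one_pow]
  have hdv : ∀ b : ℕ, ϖ ∣ ((ζ ^ b : Aˣ) : A) - 1 := fun b => by
    rw [Units.val_pow_eq_pow_val]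
    exact hϖ.trans (sub_one_dvd_pow_sub_one _ _)
  have h1 : DvdS A (c * ϖ) (∏ b ∈ Finset.range p, ES.Alg.twist (Units.map (A.subtype : A →* Kb) (ζ ^ b)) s -
      ∏ _b ∈ Finset.range p, s) := by
    refine DvdS.prod_sub _ _ _ (fun b _ => (h.twist _ (hres b)).mem) (fun _ _ => h.mem) fun b _ => ?_
    obtain ⟨w, hw, e⟩ := id h
    have e' : s = 1 + cK (c : Kb) * w := by rw [← e]; ring
    have e2 : ES.Alg.twist (Units.map (A.subtype : A →* Kb) (ζ ^ b)) s - s =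
        cK (c : Kb) * (ES.Alg.twist (Units.map (A.subtype : A →* Kb) (ζ ^ b)) w - w) := by
      rw [e', map_add, map_one, map_mul, twist_cK]; ring
    rw [e2]
    exact DvdS.const_mul (DvdS.twist_sub _ (hres b) (hdv b) hw)
  rw [Finset.prod_const, Finset.card_range] at h1
  have h2 : CongS A d (s ^ p) := h.pow_prime hp (hd1.trans (mul_dvd_mul_right hϖp c)) hd2
  have h3 := (h1.mono (by rw [mul_comm]; exact hd1)).add h2
  rw [sub_add_sub_cancel] at h3
  exact h3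

end Twist

end Fermat.Agent.S33
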